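/-
Fermat/Agent/T1B/GaussW95/Descent.lean  (helper95, programme T1B, slice S3 GAUSS, item (W3), part C3)

GAUSS DESCENT.  `O` a valuation subring of `K` with a uniformiser `π`; the Gauss ring
`GaussGen8.gaussRing O ⊂ K((q))` is cut out of `Frac O((q))` by ANY "Gauss isometry":

* `mem_gaussRing_of_map_mem` (abstract): `Φ : K((q)) →+* K'((q))` mapping `gaussRing O` into
  `gaussRing O'`, units (nonzero residue) to units, and `π` to a non-unit.  Then for
  `f ∈ Frac O((q))`: `Φ f ∈ gaussRing O' → f ∈ gaussRing O`.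
* `coeffMap_mem_gaussRing_iff` : `φ : K →+* L`, `A` a valuation subring of `L`, `O = A.comap φ`:
  `coeffMap φ f ∈ gaussRing A ↔ f ∈ gaussRing O`  (`f ∈ Frac O((q))`).
* `qExpand_mem_gaussRing_iff` : `f(q^m) ∈ gaussRing O ↔ f ∈ gaussRing O`  (`f ∈ Frac O((q))`).
* the local inclusion `inclO φ A : A.comap φ →+* A`, `resO φ A` (injective map of residue fields),
  `embK_inclO`, `redL_inclO`, `isRep_map`, `gaussRed_coeffMap`.
-/
import Mathlib
import Fermat.Agent.RED.PUR.GaussGen8
import Fermat.Agent.ES.N34.KronN14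

set_option autoImplicit false
set_option linter.unusedSectionVars false

noncomputable section

open HahnSeries ModularCurve

namespace Fermat.Agent.T1B.GaussW95

open Fermat.Agent.RED.PUR.GaussGen8

/-! ### The abstract reflection lemma -/

section Abstract

variable {K K' : Type*} [Field K] [Field K'] {O : ValuationSubring K} {O' : ValuationSubring K'}

/-- A ring homomorphism `Φ : K((q)) → K'((q))` that maps the Gauss ring of `O` into the Gauss ring
of `O'`, Gauss units to Gauss units and the uniformiser to a non-unit REFLECTS the Gauss ring on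
`Frac O((q))`. -/
theorem mem_gaussRing_of_map_mem {π : ↥O} (hπ : IsUnif O π)
    (Φ : LaurentSeries K →+* LaurentSeries K')
    (hΦ : ∀ g, g ∈ gaussRing O → Φ g ∈ gaussRing O')
    (hπΦ : gaussRed O' ⟨Φ (piK π), hΦ _ (piK_mem π)⟩ = 0)
    (hunit : ∀ u : gaussRing O, gaussRed O u ≠ 0 →
      gaussRed O' ⟨Φ (u : LaurentSeries K), hΦ _ u.2⟩ ≠ 0)
    {f : LaurentSeries K} (hf : f ∈ fracField O) (h : Φ f ∈ gaussRing O') :
    f ∈ gaussRing O := by
  rcases eq_or_ne f 0 with rfl | h0
  · exact (gaussRing O).zero_mem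
  obtain ⟨i, j, u, hu, he⟩ := exists_unit_rep hπ hf h0
  have hπ0 : (piK π : LaurentSeries K) ≠ 0 := piK_ne_zero hπ
  rcases le_or_gt j i with hji | hij
  · -- `f = π^(i-j) u`
    have hfe : f = piK π ^ (i - j) * (u : LaurentSeries K) := by
      have h1 : piK π ^ i = piK π ^ (i - j) * piK π ^ j := by
        rw [← _root_.pow_add, Nat.sub_add_cancel hji]
      rw [h1] at he
      have h2 : f * piK π ^ j = (piK π ^ (i - j) * (u : LaurentSeries K)) * piK π ^ j := by
        rw [he]; ring
      exact mul_right_cancel₀ (pow_ne_zero j hπ0) h2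
    rw [hfe]
    exact (gaussRing O).mul_mem ((gaussRing O).pow_mem (piK_mem π) _) u.2
  · -- `f π^(j-i) = u` is impossible
    exfalso
    have hfe : f * piK π ^ (j - i) = (u : LaurentSeries K) := by
      have h1 : piK π ^ j = piK π ^ i * piK π ^ (j - i) := by
        rw [← _root_.pow_add, Nat.add_sub_cancel' hij.le]
      rw [h1] at he
      have h2 : piK π ^ i * (f * piK π ^ (j - i)) = piK π ^ i * (u : LaurentSeries K) := by
        rw [← he]; ring
      exact mul_left_cancel₀ (pow_ne_zero i hπ0) h2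
    have hk : j - i ≠ 0 := by omega
    have hE : (⟨Φ f, h⟩ : gaussRing O') * ⟨Φ (piK π), hΦ _ (piK_mem π)⟩ ^ (j - i) =
        ⟨Φ (u : LaurentSeries K), hΦ _ u.2⟩ := by
      apply Subtype.ext
      show Φ f * Φ (piK π) ^ (j - i) = Φ (u : LaurentSeries K)
      rw [← map_pow, ← map_mul, hfe]
    have := congrArg (gaussRed O') hE
    rw [map_mul, map_pow, hπΦ, zero_pow hk, mul_zero] at this
    exact hunit u hu this.symm

end Abstract

/-! ### The local inclusion `A ∩ K → A` -/

section Incl

variable {K L : Type*} [Field K] [Field L] (φ : K →+* L) (A : ValuationSubring L)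

/-- The inclusion `A.comap φ → A`. -/
def inclO : ↥(A.comap φ) →+* ↥A := φ.restrict (A.comap φ) A (fun _ hx => hx)

@[simp] theorem coe_inclO (x : ↥(A.comap φ)) : ((inclO φ A x : ↥A) : L) = φ (x : K) := rfl

instance isLocalHom_inclO : IsLocalHom (inclO φ A) := by
  constructor
  intro x hx
  obtain ⟨y, hy⟩ := isUnit_iff_exists_inv.mp hx
  have h1 : φ (x : K) * (y : L) = 1 := congrArg (fun z : ↥A => (z : L)) hy
  have hx0 : (x : K) ≠ 0 := by
    intro h0
    rw [h0, map_zero, zero_mul] at h1
    exact zero_ne_one h1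
  have h2 : φ ((x : K)⁻¹) = (y : L) := by
    rw [map_inv₀]
    exact inv_eq_of_mul_eq_one_right h1
  have h4 : (x : K)⁻¹ ∈ A.comap φ := by
    rw [ValuationSubring.mem_comap, h2]; exact y.2
  refine isUnit_iff_exists_inv.mpr ⟨⟨(x : K)⁻¹, h4⟩, ?_⟩
  apply Subtype.ext
  show (x : K) * (x : K)⁻¹ = 1
  exact mul_inv_cancel₀ hx0

/-- The induced (injective) map of residue fields. -/
def resO : Res (A.comap φ) →+* Res A := IsLocalRing.ResidueField.map (inclO φ A)

theorem resO_res0 (x : ↥(A.comap φ)) : resO φ A (res0 (A.comap φ) x) = res0 A (inclO φ A x) :=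
  IsLocalRing.ResidueField.map_residue (inclO φ A) x

theorem resO_injective : Function.Injective (resO φ A) := (resO φ A).injective

theorem coeffMap_injective_of_injective {R S : Type*} [CommRing R] [CommRing S] (ψ : R →+* S)
    (hψ : Function.Injective ψ) : Function.Injective (coeffMap ψ) := by
  intro x y h
  ext n
  apply hψ
  have := congrArg (fun z => z.coeff n) h
  simpa using this

theorem embK_inclO (a : LaurentSeries ↥(A.comap φ)) :
    embK A (coeffMap (inclO φ A) a) = coeffMap φ (embK (A.comap φ) a) := by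
  unfold embK
  rw [coeffMap_coeffMap, coeffMap_coeffMap]
  exact coeffMap_congr (RingHom.ext fun _ => rfl) a

theorem redL_inclO (a : LaurentSeries ↥(A.comap φ)) :
    redL A (coeffMap (inclO φ A) a) = coeffMap (resO φ A) (redL (A.comap φ) a) := by
  unfold redL
  rw [coeffMap_coeffMap, coeffMap_coeffMap]
  exact coeffMap_congr (RingHom.ext fun x => (resO_res0 φ A x).symm) a

variable {φ A}

/-- Representations are transported along the local inclusion. -/
theorem isRep_map {f : LaurentSeries K} {a s : LaurentSeries ↥(A.comap φ)}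
    (h : IsRep (A.comap φ) f a s) :
    IsRep A (coeffMap φ f) (coeffMap (inclO φ A) a) (coeffMap (inclO φ A) s) := by
  refine ⟨?_, ?_⟩
  · rw [redL_inclO]
    exact fun h0 => h.1 (coeffMap_injective_of_injective _ (resO_injective φ A)
      (by rw [h0, map_zero]))
  · rw [embK_inclO, embK_inclO, ← map_mul, h.2]

theorem coeffMap_mem_gaussRing_of_mem {f : LaurentSeries K} (hf : f ∈ gaussRing (A.comap φ)) :
    coeffMap φ f ∈ gaussRing A := by
  obtain ⟨a, s, h⟩ := hf
  exact ⟨_, _, isRep_map h⟩

/-- `gaussRed (coeffMap φ f) = coeffMap (resO φ A) (gaussRed f)`. -/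
theorem gaussRed_coeffMap (f : gaussRing (A.comap φ)) :
    gaussRed A ⟨coeffMap φ (f : LaurentSeries K), coeffMap_mem_gaussRing_of_mem f.2⟩ =
      coeffMap (resO φ A) (gaussRed (A.comap φ) f) := by
  obtain ⟨a, s, h⟩ := f.2
  rw [gaussRed_eq A (f := ⟨coeffMap φ (f : LaurentSeries K), _⟩) (isRep_map h),
    gaussRed_eq (A.comap φ) h, redL_inclO, redL_inclO, map_div₀]

/-- **Gauss descent along a local inclusion**: for `f ∈ Frac O((q))`, `O = A ∩ K`,
`f ⊗ L ∈ gaussRing A ↔ f ∈ gaussRing O`. -/
theorem coeffMap_mem_gaussRing_iff {π : ↥(A.comap φ)} (hπ : IsUnif (A.comap φ) π)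
    {f : LaurentSeries K} (hf : f ∈ fracField (A.comap φ)) :
    coeffMap φ f ∈ gaussRing A ↔ f ∈ gaussRing (A.comap φ) := by
  refine ⟨fun h => ?_, coeffMap_mem_gaussRing_of_mem⟩
  refine mem_gaussRing_of_map_mem hπ (coeffMap φ) (fun g hg => coeffMap_mem_gaussRing_of_mem hg)
    ?_ ?_ hf h
  · have h1 := gaussRed_coeffMap (φ := φ) (A := A) (constG (A.comap φ) π)
    rw [gaussRed_unif hπ, map_zero] at h1
    exact h1
  · intro u hu
    rw [gaussRed_coeffMap]
    exact fun h0 => hu (coeffMap_injective_of_injective _ (resO_injective φ A)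
      (by rw [h0, map_zero]))

end Incl

/-! ### `q ↦ q^m` reflects the Gauss ring -/

section QExpand

variable {K : Type*} [Field K] {O : ValuationSubring K}

open Fermat.Agent.ES.N34.KronN14 in
/-- For `f ∈ Frac O((q))`: `f(q^m) ∈ gaussRing O ↔ f ∈ gaussRing O`. -/
theorem qExpand_mem_gaussRing_iff {π : ↥O} (hπ : IsUnif O π) (m : ℕ) [NeZero m]
    {f : LaurentSeries K} (hf : f ∈ fracField O) :
    qExpand K m f ∈ gaussRing O ↔ f ∈ gaussRing O := by
  refine ⟨fun h => ?_, fun h => qExpand_mem_gaussRing m h⟩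
  refine mem_gaussRing_of_map_mem hπ (qExpand K m) (fun g hg => qExpand_mem_gaussRing m hg)
    ?_ ?_ hf h
  · have h1 := gaussRed_qExpand (O := O) m (constG O π)
    rw [gaussRed_unif hπ, map_zero] at h1
    exact h1
  · intro u hu
    rw [gaussRed_qExpand]
    exact fun h0 => hu (qExpand_injective (R := Res O) (N := m) (by rw [h0, map_zero]))

end QExpand

end Fermat.Agent.T1B.GaussW95
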