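/-
Fermat/Agent/T1B/GaussW95/Core.lean  (helper95, programme T1B, slice S3 GAUSS, item (W3), parts C1, C2)

FINITE-LEVEL CORE of (W3), in the vocabulary of `ES/N34/ModelDefs9`.

Data: `A` a valuation subring of `ℚ̄`, `K ⊂ ℚ̄`, `O := AK A K` a DVR with irreducible `π` and residue
characteristic `q` (prime, `q ∤ M'`), `F := FK (M' * q) K`, `t = tq K n e ∈ FK M' K`, `j ∈ K(t)`;
`O1`, `O2` the two Gauss valuation rings of the nodal model of `X₀(M' q)`.

* (C1) `eq_O2_of_comap_of_ne` : a valuation subring `V` of `F` with the same restriction to `K(tN)`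
  as `O1` (the Gauss valuation) and `V ≠ O1` is `O2`  (`GaussVTwoInst25.glueOut_tq`, field `two`).
* (C2) witnesses excluding `O1`:
  * `zJ := π⁻¹ (x_q - x_1^q) ∈ O1` (`zJ_mem_O1`), hence `eq_O2_of_zJ_not_mem`;
  * `tN - yN^q` is a unit of `O1` (`val_O1_test`), hence `eq_O2_of_test`
    (`V.valuation (tN - yN^q) < 1 → V = O2`).
-/
import Mathlib
import Fermat.Agent.ES.N34.GaussVTwoInst25
import Fermat.Agent.T1B.GaussW95.Descent

set_option autoImplicit false
set_option linter.unusedSectionVars false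

noncomputable section

open HahnSeries ModularCurve IntermediateField

namespace Fermat.Agent.T1B.GaussW95

open Fermat.Agent.RED.Interface4 Fermat.Agent.RED.PUR.GaussGen8 Fermat.Agent.RED.PUR.KtGauss8
open Fermat.Agent.ES.N34.FrickeFK8 Fermat.Agent.ES.N34.ModelDefs9
open Fermat.Agent.RED.BASE Fermat.Agent.RED.BASE.EtaQuot12

set_option synthInstance.maxHeartbeats 400000
set_option maxHeartbeats 1000000

/-! ### Abstract: the test series `t(q) - t(q^q)^q` has nonzero reduction -/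

section AbstractTest

variable {K : Type*} [Field K] (O : ValuationSubring K) (q : ℕ) [hq : Fact q.Prime]
  [CharP (Res O) q] (n e : ℕ) [NeZero n]

/-- Frobenius on the reduction of the Hauptmodul: `t̃(𝐪)^q = t̃(𝐪^q)`. -/
theorem tq_pow_char [NeZero q] : (tq (Res O) n e) ^ q = qExpand (Res O) q (tq (Res O) n e) := by
  rw [Fermat.Agent.ES.KRON.KronCong24.pow_char q, coeffMap_tq]

/-- The integral test series `t(𝐪) - t(𝐪^q)^q`. -/
def testO [NeZero q] : LaurentSeries ↥O := tq ↥O n e - (qExpand ↥O q (tq ↥O n e)) ^ q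

theorem embK_testO [NeZero q] :
    embK O (testO O q n e) = tq K n e - (qExpand K q (tq K n e)) ^ q := by
  unfold testO
  rw [map_sub, map_pow, Fermat.Agent.ES.N34.OneNeTwo3.embK_qExpand, TBridge15.embK_tq]

theorem redL_testO [NeZero q] :
    redL O (testO O q n e) = tq (Res O) n e - qExpand (Res O) (q * q) (tq (Res O) n e) := by
  unfold testO
  rw [map_sub, map_pow, Fermat.Agent.ES.N34.OneNeTwo3.redL_qExpand, TBridge15.redL_tq, ← map_pow,
    tq_pow_char O q n e, qExpand_qExpand]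

theorem redL_testO_ne_zero [NeZero q] : redL O (testO O q n e) ≠ 0 := by
  intro h0
  have h5 := congrArg (fun x => HahnSeries.coeff x (-1)) h0
  simp only [redL_testO, HahnSeries.coeff_sub, HahnSeries.coeff_zero, coeff_tq_neg_one] at h5
  have h6 : (qExpand (Res O) (q * q) (tq (Res O) n e)).coeff (-1) = 0 := by
    apply qExpand_coeff_of_not_dvd
    rintro ⟨c, hc⟩
    have hq2 : (2 : ℤ) ≤ q := by exact_mod_cast hq.out.two_le
    push_cast at hc
    have h8 : (q : ℤ) ∣ 1 := ⟨-(q * c), by linarith⟩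
    have h9 := Int.le_of_dvd one_pos h8
    linarith
  rw [h6, sub_zero] at h5
  exact one_ne_zero h5

/-- the test series is a unit of the Gauss ring. -/
theorem test_mem_gaussRing [NeZero q] :
    tq K n e - (qExpand K q (tq K n e)) ^ q ∈ gaussRing O := by
  rw [← embK_testO O q n e]; exact embK_mem O _

theorem gaussRed_test_ne_zero [NeZero q] :
    gaussRed O ⟨tq K n e - (qExpand K q (tq K n e)) ^ q, test_mem_gaussRing O q n e⟩ ≠ 0 := by
  have h : (⟨tq K n e - (qExpand K q (tq K n e)) ^ q, test_mem_gaussRing O q n e⟩ : gaussRing O) =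
      ⟨embK O (testO O q n e), embK_mem O _⟩ := Subtype.ext (embK_testO O q n e).symm
  rw [h, gaussRed_embK]
  exact redL_testO_ne_zero O q n e

theorem test_inv_mem_gaussRing [NeZero q] :
    (tq K n e - (qExpand K q (tq K n e)) ^ q)⁻¹ ∈ gaussRing O :=
  inv_mem_of_gaussRed_ne_zero O ⟨_, test_mem_gaussRing O q n e⟩ (gaussRed_test_ne_zero O q n e)

end AbstractTest

/-! ### The concrete statements -/

section Concrete

variable {A : ValuationSubring Qbar} {K : IntermediateField ℚ Qbar} (M' q : ℕ) [NeZero M']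
  [NeZero q] [hq : Fact q.Prime] [IsDiscreteValuationRing ↥(AK A K)] [CharP (Res (AK A K)) q]
  {π : ↥(AK A K)} {n e : ℕ} [NeZero n]

/-- **(C1)** A valuation subring of `F = K·F_{M'q}` with the Gauss restriction to `K(tN)` and
different from `O1` is `O2`. -/
theorem eq_O2_of_comap_of_ne (hπ : Irreducible π) (hE : FK (M' * q) K ≤ fracField (AK A K))
    (hqM : ¬ q ∣ M') (ht : tq (↥K) n e ∈ FK M' K)
    (hjt : jqModC (↥K) ∈ Kt (AK A K) (TBridge15.tG (AK A K) n e))
    (V : ValuationSubring ↥(FK (M' * q) K))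
    (hcomap : V.comap (algebraMap ↥(IntermediateField.adjoin (↥K) {tN q ht}) ↥(FK (M' * q) K)) =
      (O1 M' q (isUnif_of_irreducible (AK A K) hπ) hE).comap
        (algebraMap ↥(IntermediateField.adjoin (↥K) {tN q ht}) ↥(FK (M' * q) K)))
    (hne : V ≠ O1 M' q (isUnif_of_irreducible (AK A K) hπ) hE) :
    V = O2 M' q (isUnif_of_irreducible (AK A K) hπ) hE :=
  ((Fermat.Agent.ES.N34.GaussVTwoInst25.glueOut_tq M' q hπ hE hqM ht hjt).two V hcomap).resolve_left
    hne

/-- The `j`-witness `zJ = π⁻¹ (x_q - x_1^q)`. -/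
def zJ (π : ↥(AK A K)) : FK (M' * q) K :=
  (algebraMap K (FK (M' * q) K) (π : K))⁻¹ *
    (xdL (M' * q) K q (Dvd.intro_left M' rfl) - xdL (M' * q) K 1 (one_dvd _) ^ q)

/-- `zJ ∈ O1` (Kronecker congruence for `j` at the cusp `∞`). -/
theorem zJ_mem_O1 {π : ↥(AK A K)} (hπ : IsUnif (AK A K) π)
    (hE : FK (M' * q) K ≤ fracField (AK A K)) : zJ M' q π ∈ O1 M' q hπ hE := by
  rw [mem_O1_iff]
  have hπ0 : piK π ≠ 0 := piK_ne_zero hπ
  obtain ⟨g, hg, hgeq⟩ := Fermat.Agent.ES.N34.OneNeTwo3.kron_j (O := AK A K) q hπ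
  have hcoe : ((zJ M' q π : FK (M' * q) K) : LaurentSeries K) =
      (piK π)⁻¹ * (qExpand K q (jqModC K) - (jqModC K) ^ q) := by
    unfold zJ
    push_cast
    rw [algebraMap_eq_C, coe_xdL, coe_xdL, qExpand_one_apply]
  rw [hcoe, hgeq, ← mul_assoc, inv_mul_cancel₀ hπ0, one_mul]
  exact hg

/-- **(C2, `j`-test)** -/
theorem eq_O2_of_zJ_not_mem (hπ : Irreducible π) (hE : FK (M' * q) K ≤ fracField (AK A K))
    (hqM : ¬ q ∣ M') (ht : tq (↥K) n e ∈ FK M' K)
    (hjt : jqModC (↥K) ∈ Kt (AK A K) (TBridge15.tG (AK A K) n e))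
    (V : ValuationSubring ↥(FK (M' * q) K))
    (hcomap : V.comap (algebraMap ↥(IntermediateField.adjoin (↥K) {tN q ht}) ↥(FK (M' * q) K)) =
      (O1 M' q (isUnif_of_irreducible (AK A K) hπ) hE).comap
        (algebraMap ↥(IntermediateField.adjoin (↥K) {tN q ht}) ↥(FK (M' * q) K)))
    (hz : zJ M' q π ∉ V) :
    V = O2 M' q (isUnif_of_irreducible (AK A K) hπ) hE :=
  eq_O2_of_comap_of_ne M' q hπ hE hqM ht hjt V hcomap
    (fun h => hz (h ▸ zJ_mem_O1 M' q (isUnif_of_irreducible (AK A K) hπ) hE))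

/-- `tN - yN^q` is a unit of `O1`. -/
theorem val_O1_test {π : ↥(AK A K)} (hπ : IsUnif (AK A K) π)
    (hE : FK (M' * q) K ≤ fracField (AK A K)) (ht : tq (↥K) n e ∈ FK M' K) :
    (O1 M' q hπ hE).valuation (tN q ht - (yN q ht) ^ q) = 1 := by
  have hcoe : ((tN q ht - (yN q ht) ^ q : FK (M' * q) K) : LaurentSeries K) =
      tq K n e - (qExpand K q (tq K n e)) ^ q := by
    push_cast
    rw [coe_tN, coe_yN]
  have h1 : tN q ht - (yN q ht) ^ q ∈ O1 M' q hπ hE := by
    rw [mem_O1_iff, hcoe]; exact test_mem_gaussRing (AK A K) q n e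
  have h2 : (tN q ht - (yN q ht) ^ q)⁻¹ ∈ O1 M' q hπ hE := by
    rw [mem_O1_iff]
    push_cast
    rw [coe_tN, coe_yN]
    exact test_inv_mem_gaussRing (AK A K) q n e
  have hle : (O1 M' q hπ hE).valuation (tN q ht - (yN q ht) ^ q) ≤ 1 :=
    ((O1 M' q hπ hE).valuation_le_one_iff _).mpr h1
  have hge : (O1 M' q hπ hE).valuation (tN q ht - (yN q ht) ^ q)⁻¹ ≤ 1 :=
    ((O1 M' q hπ hE).valuation_le_one_iff _).mpr h2
  rw [map_inv₀] at hge
  rcases hle.lt_or_eq with hlt | heq
  · exfalso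
    have hpos : 0 < (O1 M' q hπ hE).valuation (tN q ht - (yN q ht) ^ q) := by
      rw [Valuation.pos_iff]
      intro h0
      have h3 := gaussRed_test_ne_zero (AK A K) q n e
      have h4 : tq (↥K) n e - (qExpand (↥K) q (tq (↥K) n e)) ^ q = 0 := by
        rw [← hcoe, h0]; rfl
      apply h3
      have h5 : (⟨tq (↥K) n e - (qExpand (↥K) q (tq (↥K) n e)) ^ q,
          test_mem_gaussRing (AK A K) q n e⟩ : gaussRing (AK A K)) = 0 := Subtype.ext h4
      rw [h5, map_zero]
    have := (inv_le_one₀ hpos).mp hge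
    exact absurd hlt (not_lt.mpr this)
  · exact heq

/-- **(C2, `t`-test)** `V` has the Gauss restriction to `K(tN)` and `v(tN - yN^q) > 0`: `V = O2`. -/
theorem eq_O2_of_test (hπ : Irreducible π) (hE : FK (M' * q) K ≤ fracField (AK A K))
    (hqM : ¬ q ∣ M') (ht : tq (↥K) n e ∈ FK M' K)
    (hjt : jqModC (↥K) ∈ Kt (AK A K) (TBridge15.tG (AK A K) n e))
    (V : ValuationSubring ↥(FK (M' * q) K))
    (hcomap : V.comap (algebraMap ↥(IntermediateField.adjoin (↥K) {tN q ht}) ↥(FK (M' * q) K)) =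
      (O1 M' q (isUnif_of_irreducible (AK A K) hπ) hE).comap
        (algebraMap ↥(IntermediateField.adjoin (↥K) {tN q ht}) ↥(FK (M' * q) K)))
    (htest : V.valuation (tN q ht - (yN q ht) ^ q) < 1) :
    V = O2 M' q (isUnif_of_irreducible (AK A K) hπ) hE := by
  refine eq_O2_of_comap_of_ne M' q hπ hE hqM ht hjt V hcomap (fun h => ?_)
  subst h
  rw [val_O1_test M' q (isUnif_of_irreducible (AK A K) hπ) hE ht] at htest
  exact lt_irrefl _ htest

end Concrete

end Fermat.Agent.T1B.GaussW95
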