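/-
Fermat/Agent/T1B/GaussW95/AlFK.lean  (helper95, programme T1B, slice S3 GAUSS, item (W3))

FINITE-LEVEL ATKIN–LEHNER INVOLUTION.  For an intermediate field `L` of `ℚ̄/ℚ`, `p` prime, `p ∤ M`:
the Atkin–Lehner involution `w_p` of `F̄_{M p}` (`ALP90.AL1.alBar`) descends to
`alFK M p L hp hpM : FK (M * p) L →ₐ[L] FK (M * p) L` (`x_d ↦ x_{d p}`, `x_{d p} ↦ x_d`, `d ∣ M`), and
`WpK M p L hp hpM := val ∘ alFK : FK (M * p) L →ₐ[L] L((q))` is the finite-level Atkin–Lehner
expansion:
  `coeffMap (algebraMap L ℚ̄) (WpK f) = Wp (baseChangeHom f)`.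
-/
import Mathlib
import Fermat.Agent.ES.N34.FrickeV11
import Fermat.Agent.T1B.ALP90.AL1

set_option autoImplicit false
set_option linter.unusedSectionVars false

noncomputable section

open HahnSeries ModularCurve IntermediateField

namespace Fermat.Agent.T1B.GaussW95

open Fermat.Agent.RED.Interface4 Fermat.Agent.ES.N34.FrickeFK8 Fermat.Agent.X0
open Fermat.Agent.RED.DESC.PlaceExtend27 Fermat.Agent.RED.DESC.CoeffDescent1
open Fermat.Agent.ES.KRON.Conjugates11 Fermat.Agent.T1B.ALP90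

set_option synthInstance.maxHeartbeats 400000
set_option maxHeartbeats 400000

variable (M p : ℕ) [NeZero M] [NeZero p] (L : IntermediateField ℚ Qbar)

/-- `baseChangeHom` commutes with `α_p`. -/
theorem bc_heckeAlpha (x : FK M L) :
    baseChangeHom (M * p) L (heckeAlphaBar (↥L) M p x) =
      heckeAlphaBar Kbar M p (baseChangeHom M L x) := by
  apply Subtype.ext
  rw [coe_baseChangeHom, coe_heckeAlphaBar, coe_heckeAlphaBar, coe_baseChangeHom]

/-- `baseChangeHom` commutes with `β_p`. -/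
theorem bc_heckeBeta (x : FK M L) :
    baseChangeHom (M * p) L (heckeBetaBar (↥L) M p x) =
      heckeBetaBar Kbar M p (baseChangeHom M L x) := by
  apply Subtype.ext
  rw [coe_baseChangeHom, coe_heckeBetaBar, coe_heckeBetaBar, coe_baseChangeHom,
    Fermat.Agent.X0.CuspGood.coeffMap_qExpand]

/-- `w_p` descends to `FK (M p) L`. -/
theorem exists_descent_al (hp : p.Prime) (hpM : ¬ p ∣ M) (f : FK (M * p) L) :
    ∃ g : FK (M * p) L,
      baseChangeHom (M * p) L g = AL1.alBar M p hp hpM (baseChangeHom (M * p) L f) := by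
  induction f using FK_induction with
  | hx d hd =>
      rcases dvd_mul_prime_cases M p hp hd with hdM | ⟨d', hdM, hdd⟩
      · have hd2 : d * p ∣ M * p := Nat.mul_dvd_mul_right hdM p
        have : NeZero (d * p) := ⟨Nat.mul_ne_zero (NeZero.ne d) (NeZero.ne p)⟩
        refine ⟨xdL (M * p) L (d * p) hd2, ?_⟩
        rw [baseChangeHom_xdL, baseChangeHom_xdL, ← alpha_jdF M p d hdM hd, AL1.alBar_alpha,
          beta_jdF M p d hdM hd2]
      · subst hdd
        have hd0 : NeZero d' := ⟨fun h0 => NeZero.ne (d' * p) (by rw [h0, zero_mul])⟩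
        have hd2 : d' ∣ M * p := Dvd.dvd.mul_right hdM p
        refine ⟨xdL (M * p) L d' hd2, ?_⟩
        rw [baseChangeHom_xdL, baseChangeHom_xdL, ← beta_jdF M p d' hdM hd, AL1.alBar_beta,
          alpha_jdF M p d' hdM hd2]
  | hc c =>
      exact ⟨algebraMap L (FK (M * p) L) c, by
        rw [baseChangeHom_algebraMap, (AL1.alBar M p hp hpM).commutes]⟩
  | hadd f g hf hg =>
      obtain ⟨f', hf'⟩ := hf
      obtain ⟨g', hg'⟩ := hg
      exact ⟨f' + g', by rw [map_add, map_add, map_add, hf', hg']⟩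
  | hmul f g hf hg =>
      obtain ⟨f', hf'⟩ := hf
      obtain ⟨g', hg'⟩ := hg
      exact ⟨f' * g', by rw [map_mul, map_mul, map_mul, hf', hg']⟩
  | hinv f hf =>
      obtain ⟨f', hf'⟩ := hf
      exact ⟨f'⁻¹, by rw [map_inv₀, map_inv₀, map_inv₀, hf']⟩

/-- `w_p` on `FK (M p) L`, as a function. -/
def alFun (hp : p.Prime) (hpM : ¬ p ∣ M) (f : FK (M * p) L) : FK (M * p) L :=
  (exists_descent_al M p L hp hpM f).choose

theorem baseChangeHom_alFun (hp : p.Prime) (hpM : ¬ p ∣ M) (f : FK (M * p) L) :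
    baseChangeHom (M * p) L (alFun M p L hp hpM f) =
      AL1.alBar M p hp hpM (baseChangeHom (M * p) L f) :=
  (exists_descent_al M p L hp hpM f).choose_spec

/-- **The Atkin–Lehner involution `w_p` of `FK (M p) L = L(x_d : d ∣ M p)`.** -/
def alFK (hp : p.Prime) (hpM : ¬ p ∣ M) : FK (M * p) L →ₐ[L] FK (M * p) L where
  toFun := alFun M p L hp hpM
  map_one' := baseChangeHom_injective (M * p) L (by
    rw [baseChangeHom_alFun]; simp only [map_one])
  map_mul' f g := baseChangeHom_injective (M * p) L (by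
    rw [baseChangeHom_alFun, map_mul, map_mul, map_mul, baseChangeHom_alFun,
      baseChangeHom_alFun])
  map_zero' := baseChangeHom_injective (M * p) L (by
    rw [baseChangeHom_alFun]; simp only [map_zero])
  map_add' f g := baseChangeHom_injective (M * p) L (by
    rw [baseChangeHom_alFun, map_add, map_add, map_add, baseChangeHom_alFun,
      baseChangeHom_alFun])
  commutes' c := baseChangeHom_injective (M * p) L (by
    rw [baseChangeHom_alFun, baseChangeHom_algebraMap, (AL1.alBar M p hp hpM).commutes])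

/-- `w_p` over `L` is the restriction of `w_p` over `ℚ̄`. -/
theorem baseChangeHom_alFK (hp : p.Prime) (hpM : ¬ p ∣ M) (f : FK (M * p) L) :
    baseChangeHom (M * p) L (alFK M p L hp hpM f) =
      AL1.alBar M p hp hpM (baseChangeHom (M * p) L f) :=
  baseChangeHom_alFun M p L hp hpM f

/-- `w_p ∘ α_p = β_p`. -/
theorem alFK_alpha (hp : p.Prime) (hpM : ¬ p ∣ M) (x : FK M L) :
    alFK M p L hp hpM (heckeAlphaBar (↥L) M p x) = heckeBetaBar (↥L) M p x := by
  apply baseChangeHom_injective (M * p) L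
  rw [baseChangeHom_alFK, bc_heckeAlpha, AL1.alBar_alpha, bc_heckeBeta]

/-- `w_p ∘ β_p = α_p`. -/
theorem alFK_beta (hp : p.Prime) (hpM : ¬ p ∣ M) (x : FK M L) :
    alFK M p L hp hpM (heckeBetaBar (↥L) M p x) = heckeAlphaBar (↥L) M p x := by
  apply baseChangeHom_injective (M * p) L
  rw [baseChangeHom_alFK, bc_heckeBeta, AL1.alBar_beta, bc_heckeAlpha]

/-- `w_p` is an involution of `FK (M p) L`. -/
theorem alFK_alFK (hp : p.Prime) (hpM : ¬ p ∣ M) (f : FK (M * p) L) :
    alFK M p L hp hpM (alFK M p L hp hpM f) = f := by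
  apply baseChangeHom_injective (M * p) L
  rw [baseChangeHom_alFK, baseChangeHom_alFK, AL1.alBar_alBar]

/-- `w_p` as an `L`-algebra automorphism of `FK (M p) L`. -/
def alFKEquiv (hp : p.Prime) (hpM : ¬ p ∣ M) : FK (M * p) L ≃ₐ[L] FK (M * p) L :=
  AlgEquiv.ofAlgHom (alFK M p L hp hpM) (alFK M p L hp hpM)
    (AlgHom.ext fun f => alFK_alFK M p L hp hpM f) (AlgHom.ext fun f => alFK_alFK M p L hp hpM f)

@[simp] theorem alFKEquiv_apply (hp : p.Prime) (hpM : ¬ p ∣ M) (f : FK (M * p) L) :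
    alFKEquiv M p L hp hpM f = alFK M p L hp hpM f := rfl

/-- **The finite-level Atkin–Lehner expansion** `W_p : FK (M p) L →ₐ[L] L((q))`. -/
def WpK (hp : p.Prime) (hpM : ¬ p ∣ M) : FK (M * p) L →ₐ[L] LaurentSeries (↥L) :=
  (FK (M * p) L).val.comp (alFK M p L hp hpM)

theorem WpK_apply (hp : p.Prime) (hpM : ¬ p ∣ M) (f : FK (M * p) L) :
    WpK M p L hp hpM f = ((alFK M p L hp hpM f : FK (M * p) L) : LaurentSeries L) := rfl

/-- **`W_p` over `L` is the restriction of `W_p` over `ℚ̄`.** -/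
theorem coeffMap_WpK (hp : p.Prime) (hpM : ¬ p ∣ M) (f : FK (M * p) L) :
    coeffMap (algebraMap L Qbar) (WpK M p L hp hpM f) =
      AL1.Wp M p hp hpM (baseChangeHom (M * p) L f) := by
  rw [WpK_apply, ← coe_baseChangeHom, baseChangeHom_alFK, AL1.coe_alBar]

/-- `W_p ∘ α_p = (q ↦ q^p)`. -/
theorem WpK_alpha (hp : p.Prime) (hpM : ¬ p ∣ M) (x : FK M L) :
    WpK M p L hp hpM (heckeAlphaBar (↥L) M p x) = qExpand (↥L) p (x : LaurentSeries L) := by
  rw [WpK_apply, alFK_alpha, coe_heckeBetaBar]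

/-- `W_p ∘ β_p = id`. -/
theorem WpK_beta (hp : p.Prime) (hpM : ¬ p ∣ M) (x : FK M L) :
    WpK M p L hp hpM (heckeBetaBar (↥L) M p x) = (x : LaurentSeries L) := by
  rw [WpK_apply, alFK_beta, coe_heckeAlphaBar]

end Fermat.Agent.T1B.GaussW95
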