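/-
Fermat/Agent/T1B/GaussW95/ResId.lean  (helper95, programme T1B, slice S3 GAUSS, item (W3) / RESFIELD-ID side 2)

FINITE LEVEL, `ModelDefs9` vocabulary (`O := AK A K` a DVR with irreducible `π`, residue characteristic
`q ∤ M'`, `F := FK (M' * q) K`, `t = tq K n e ∈ FK M' K`, `j ∈ K(t)`).

* `isGaussPullback_WpK` : **`O2` is the Gauss pull-back along the finite-level Atkin–Lehner
  expansion** `WpK M' q K : F →ₐ[K] K((q))` (`AlFK.lean`): `x ∈ O2 ↔ WpK x ∈ gaussRing (AK A K)`.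
* `hcomb_O1`, `hcomb_O2` : `O1 = α(Ov_{M'}) + π O1`, `O2 = β(Ov_{M'}) + π O2`.
* the residue statements (RF1-fin), (RF2-fin) are in `ResIdMain.lean`.
-/
import Mathlib
import Fermat.Agent.ES.N34.CombA26
import Fermat.Agent.ES.N34.CombW5
import Fermat.Agent.ES.RED.ResField26
import Fermat.Agent.T1B.GaussW95.Core
import Fermat.Agent.T1B.GaussW95.AlFK

set_option autoImplicit false
set_option linter.unusedSectionVars false

noncomputable section

open HahnSeries ModularCurve IntermediateField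

namespace Fermat.Agent.T1B.GaussW95

open Fermat.Agent.RED.Interface4 Fermat.Agent.RED.PUR.GaussGen8 Fermat.Agent.RED.PUR.KtGauss8
open Fermat.Agent.RED.PUR.G1Package8 Fermat.Agent.RED.PUR.GaussBridge10
open Fermat.Agent.ES.N34.FrickeFK8 Fermat.Agent.ES.N34.ModelDefs9 Fermat.Agent.ES.N34.GaussEmb22
open Fermat.Agent.ES.N34.ModelGlue22 Fermat.Agent.ES.N34.IsoM25
open Fermat.Agent.RED.BASE Fermat.Agent.RED.BASE.EtaQuot12

set_option synthInstance.maxHeartbeats 400000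
set_option maxHeartbeats 1000000

/-! ### Abstract: residues modulo `π` -/

section Abstract

variable {K : Type*} [Field K] {O : ValuationSubring K} [IsDiscreteValuationRing ↥O] {π : ↥O}
  {F : Type*} [Field F] [Algebra K F] {ι : F →ₐ[K] LaurentSeries K} {V : ValuationSubring F}

/-- `x ≡ y mod π V` have the same residue. -/
theorem redOf_eq_of_sub_eq (hV : IsGaussPullback O ι V) (hπ : Irreducible π) {x y c : F}
    (hx : x ∈ V) (hy : y ∈ V) (hc : c ∈ V) (h : x - y = algebraMap K F (π : K) * c) :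
    redOf hV ⟨x, hx⟩ = redOf hV ⟨y, hy⟩ := by
  have hxy : x - y ∈ V := sub_mem hx hy
  have h0 : redOf hV ⟨x - y, hxy⟩ = 0 := by
    rw [redOf_eq_zero_iff]
    show V.valuation (x - y) < 1
    rw [h, map_mul]
    have h1 := val_pi_lt_one hV hπ
    have h2 : V.valuation c ≤ 1 := (V.valuation_le_one_iff c).mpr hc
    exact mul_lt_one_of_nonneg_of_lt_one_left zero_le h1 h2
  have h3 : redOf hV ⟨x - y, hxy⟩ = redOf hV ⟨x, hx⟩ - redOf hV ⟨y, hy⟩ := by
    rw [← map_sub]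
    rfl
  rw [h3, sub_eq_zero] at h0
  exact h0

end Abstract

/-! ### Frobenius on the Hauptmodul -/

section Frob

variable {K : Type*} [Field K] (O : ValuationSubring K) (q : ℕ) [hq : Fact q.Prime]
  [CharP (Res O) q] (n e : ℕ) [NeZero n]

/-- the integral series `t(𝐪^q) - t(𝐪)^q`. -/
def frobO [NeZero q] : LaurentSeries ↥O := qExpand ↥O q (tq ↥O n e) - (tq ↥O n e) ^ q

theorem embK_frobO [NeZero q] :
    embK O (frobO O q n e) = qExpand K q (tq K n e) - (tq K n e) ^ q := by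
  unfold frobO
  rw [map_sub, map_pow, Fermat.Agent.ES.N34.OneNeTwo3.embK_qExpand, TBridge15.embK_tq]

theorem redL_frobO [NeZero q] : redL O (frobO O q n e) = 0 := by
  unfold frobO
  rw [map_sub, map_pow, Fermat.Agent.ES.N34.OneNeTwo3.redL_qExpand, TBridge15.redL_tq,
    tq_pow_char O q n e, sub_self]

theorem frob_mem_gaussRing [NeZero q] :
    qExpand K q (tq K n e) - (tq K n e) ^ q ∈ gaussRing O := by
  rw [← embK_frobO O q n e]; exact embK_mem O _

theorem gaussRed_frob_eq_zero [NeZero q] :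
    gaussRed O ⟨qExpand K q (tq K n e) - (tq K n e) ^ q, frob_mem_gaussRing O q n e⟩ = 0 := by
  have h : (⟨qExpand K q (tq K n e) - (tq K n e) ^ q, frob_mem_gaussRing O q n e⟩ : gaussRing O) =
      ⟨embK O (frobO O q n e), embK_mem O _⟩ := Subtype.ext (embK_frobO O q n e).symm
  rw [h, gaussRed_embK]
  exact redL_frobO O q n e

end Frob

/-! ### The concrete statements -/

section Concrete

variable {A : ValuationSubring Qbar} {K : IntermediateField ℚ Qbar} (M' q : ℕ) [NeZero M']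
  [NeZero q] [hq : Fact q.Prime] [IsDiscreteValuationRing ↥(AK A K)] [CharP (Res (AK A K)) q]
  {π : ↥(AK A K)} {n e : ℕ} [NeZero n]

/-- The pull-back of `O1` along `w_p`. -/
def O1al {π : ↥(AK A K)} (hu : IsUnif (AK A K) π) (hE : FK (M' * q) K ≤ fracField (AK A K))
    (hqM : ¬ q ∣ M') : ValuationSubring ↥(FK (M' * q) K) :=
  (O1 M' q hu hE).comap (alFK M' q K hq.out hqM).toRingHom

theorem isGaussPullback_O1al {π : ↥(AK A K)} (hu : IsUnif (AK A K) π)
    (hE : FK (M' * q) K ≤ fracField (AK A K)) (hqM : ¬ q ∣ M') :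
    IsGaussPullback (AK A K) (WpK M' q K hq.out hqM) (O1al M' q hu hE hqM) :=
  fun _ => Iff.rfl

theorem WpK_tN (hqM : ¬ q ∣ M') (ht : tq (↥K) n e ∈ FK M' K) :
    WpK M' q K hq.out hqM (tN q ht) = qExpand (↥K) q (tq (↥K) n e) := by
  rw [tN, alpha, WpK_alpha, coe_tM]

theorem WpK_yN (hqM : ¬ q ∣ M') (ht : tq (↥K) n e ∈ FK M' K) :
    WpK M' q K hq.out hqM (yN q ht) = tq (↥K) n e := by
  rw [yN, beta, WpK_beta, coe_tM]

/-- **`O2` is the Gauss pull-back along the Atkin–Lehner expansion `W_p`** (finite level). -/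
theorem O1al_eq_O2 (hπ : Irreducible π) (hE : FK (M' * q) K ≤ fracField (AK A K))
    (hqM : ¬ q ∣ M') (ht : tq (↥K) n e ∈ FK M' K)
    (hjt : jqModC (↥K) ∈ Kt (AK A K) (TBridge15.tG (AK A K) n e)) :
    O1al M' q (isUnif_of_irreducible (AK A K) hπ) hE hqM =
      O2 M' q (isUnif_of_irreducible (AK A K) hπ) hE := by
  have hu := isUnif_of_irreducible (AK A K) hπ
  have hV := isGaussPullback_O1al (A := A) (K := K) M' q hu hE hqM
  have hV₁ := isGaussPullback_O1 (A := A) (K := K) M' q hu hE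
  -- `t`-data for `O1`
  have ht₁ : (FK (M' * q) K).val (tN q ht) ∈ gaussRing (AK A K) :=
    tN_mem_gaussRing (A := A) M' q ht
  have htr₁ : Transcendental (Res (AK A K))
      (gaussRed (AK A K) ⟨(FK (M' * q) K).val (tN q ht), ht₁⟩) := by
    have heq := tN_eq_tG (A := A) M' q ht ht₁
    have : (⟨(FK (M' * q) K).val (tN q ht), ht₁⟩ : ↥(gaussRing (AK A K))) =
        TBridge15.tG (AK A K) n e := heq
    rw [this]
    exact TBridge15.transcendental_gaussRed_tG (AK A K) n e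
  -- `t`-data for `W_p`
  have htq : tq (↥K) n e ∈ gaussRing (AK A K) := TBridge15.tq_mem_gaussRing (AK A K) n e
  have htW : WpK M' q K hq.out hqM (tN q ht) ∈ gaussRing (AK A K) := by
    rw [WpK_tN]; exact Fermat.Agent.ES.N34.GaussVTwoFam25.qExpand_mem_gaussRing q htq
  have htrW : Transcendental (Res (AK A K))
      (gaussRed (AK A K) ⟨WpK M' q K hq.out hqM (tN q ht), htW⟩) := by
    have h1 : (⟨WpK M' q K hq.out hqM (tN q ht), htW⟩ : ↥(gaussRing (AK A K))) =
        ⟨qExpand (↥K) q ((TBridge15.tG (AK A K) n e : ↥(gaussRing (AK A K))) : LaurentSeries K),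
          Fermat.Agent.ES.N34.GaussVTwoFam25.qExpand_mem_gaussRing q
            (TBridge15.tG (AK A K) n e).2⟩ := Subtype.ext (WpK_tN M' q hqM ht)
    rw [h1, Fermat.Agent.ES.N34.GaussVTwoFam25.gaussRed_qExpand]
    exact Fermat.Agent.ES.N34.GaussVTwoFam25.transcendental_qExpand q
      (TBridge15.transcendental_gaussRed_tG (AK A K) n e)
  have hcomap := comap_eq hV hV₁ hπ htW htrW ht₁ htr₁
  refine eq_O2_of_test M' q hπ hE hqM ht hjt _ hcomap ?_
  -- the test
  have hmem : tN q ht - (yN q ht) ^ q ∈ O1al M' q hu hE hqM := by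
    rw [hV, map_sub, map_pow, WpK_tN, WpK_yN]
    exact frob_mem_gaussRing (AK A K) q n e
  have h0 : redOf hV ⟨tN q ht - (yN q ht) ^ q, hmem⟩ = 0 := by
    rw [redOf_apply]
    have h1 : toGauss hV ⟨tN q ht - (yN q ht) ^ q, hmem⟩ =
        ⟨qExpand (↥K) q (tq (↥K) n e) - (tq (↥K) n e) ^ q,
          frob_mem_gaussRing (AK A K) q n e⟩ := by
      apply Subtype.ext
      rw [coe_toGauss]
      show WpK M' q K hq.out hqM (tN q ht - (yN q ht) ^ q) = _
      rw [map_sub, map_pow, WpK_tN, WpK_yN]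
    rw [h1]
    exact gaussRed_frob_eq_zero (AK A K) q n e
  exact (redOf_eq_zero_iff hV ⟨_, hmem⟩).mp h0

/-- **(W3, finite level, headline)** `O2` is the Gauss pull-back of `gaussRing (AK A K)` along the
finite-level Atkin–Lehner expansion `WpK`. -/
theorem isGaussPullback_WpK (hπ : Irreducible π) (hE : FK (M' * q) K ≤ fracField (AK A K))
    (hqM : ¬ q ∣ M') (ht : tq (↥K) n e ∈ FK M' K)
    (hjt : jqModC (↥K) ∈ Kt (AK A K) (TBridge15.tG (AK A K) n e)) :
    IsGaussPullback (AK A K) (WpK M' q K hq.out hqM)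
      (O2 M' q (isUnif_of_irreducible (AK A K) hπ) hE) := by
  rw [← O1al_eq_O2 M' q hπ hE hqM ht hjt]
  exact isGaussPullback_O1al M' q _ hE hqM

/-- `x ∈ O2 ↔ W_p x ∈ gaussRing`. -/
theorem mem_O2_iff_WpK (hπ : Irreducible π) (hE : FK (M' * q) K ≤ fracField (AK A K))
    (hqM : ¬ q ∣ M') (ht : tq (↥K) n e ∈ FK M' K)
    (hjt : jqModC (↥K) ∈ Kt (AK A K) (TBridge15.tG (AK A K) n e)) (x : FK (M' * q) K) :
    x ∈ O2 M' q (isUnif_of_irreducible (AK A K) hπ) hE ↔
      WpK M' q K hq.out hqM x ∈ gaussRing (AK A K) :=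
  isGaussPullback_WpK M' q hπ hE hqM ht hjt x

/-- `w_p` exchanges `O1` and `O2`. -/
theorem alFK_mem_O1_iff (hπ : Irreducible π) (hE : FK (M' * q) K ≤ fracField (AK A K))
    (hqM : ¬ q ∣ M') (ht : tq (↥K) n e ∈ FK M' K)
    (hjt : jqModC (↥K) ∈ Kt (AK A K) (TBridge15.tG (AK A K) n e)) (x : FK (M' * q) K) :
    alFK M' q K hq.out hqM x ∈ O1 M' q (isUnif_of_irreducible (AK A K) hπ) hE ↔
      x ∈ O2 M' q (isUnif_of_irreducible (AK A K) hπ) hE :=
  (mem_O2_iff_WpK M' q hπ hE hqM ht hjt x).symm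

/-! ### `O_j = φ(Ov_{M'}) + π O_j` -/

/-- **`O1 = α(Ov_{M'}) + π O1`** (`CombA26.hcombAt_of` with the instance hypotheses of
`GaussVTwoInst25.glueOut_tq`). -/
theorem hcomb_O1 (hπ : Irreducible π) (hE : FK (M' * q) K ≤ fracField (AK A K))
    (hqM : ¬ q ∣ M') (ht : tq (↥K) n e ∈ FK M' K)
    (hjt : jqModC (↥K) ∈ Kt (AK A K) (TBridge15.tG (AK A K) n e)) :
    ∀ x ∈ O1 M' q (isUnif_of_irreducible (AK A K) hπ) hE,
      ∃ z : FK M' K, (z : LaurentSeries ↥K) ∈ gaussRing (AK A K) ∧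
        ∃ c ∈ O1 M' q (isUnif_of_irreducible (AK A K) hπ) hE,
          x - alpha K M' q z = algebraMap ↥(AK A K) ↥(FK (M' * q) K) π * c := by
  have hu := isUnif_of_irreducible (AK A K) hπ
  obtain ⟨ht₂, htr₂, b₂, hb₂, hli₂⟩ :=
    Fermat.Agent.ES.N34.GaussVTwoInst25.v2_export (A := A) M' q hπ hE hqM ht hjt
  have h12 := Fermat.Agent.ES.N34.OneNeTwo3.o1_ne_o2 (A := A) (K := K) M' q hu hE
  have hFKM : FK M' K = modularFunctionFieldFullC (↥K) M' :=
    Fermat.Agent.RED.PUR.DegBaseChange25.laurentBaseChange_full_eq (L := ↥K) M'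
  have hFKN : FK (M' * q) K = modularFunctionFieldFullC (↥K) (M' * q) :=
    Fermat.Agent.RED.PUR.DegBaseChange25.laurentBaseChange_full_eq (L := ↥K) (M' * q)
  have htE : ((TBridge15.tG (AK A K) n e : ↥(gaussRing (AK A K))) : LaurentSeries K) ∈
      modularFunctionFieldFullC (↥K) M' := by
    rw [← hFKM]; exact ht
  obtain ⟨hdeg, hn0, -, -, hirrM⟩ :=
    Fermat.Agent.ES.N34.GaussVOne25.g2_v1 (AK A K) hπ q M' hqM (TBridge15.tG (AK A K) n e) htE hjt
  rw [← hFKN, ← hFKM] at hdeg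
  rw [← hFKM] at hirrM hn0
  have hEM : FK M' K ≤ fracField (AK A K) := FK_le_fracField A K M'
  have htM : ((tM ht : ↥(FK M' K)) : LaurentSeries K) ∈ gaussRing (AK A K) :=
    TBridge15.tq_mem_gaussRing (AK A K) n e
  have htrM : Transcendental (Res (AK A K))
      (gaussRed (AK A K) ⟨((tM ht : ↥(FK M' K)) : LaurentSeries K), htM⟩) :=
    TBridge15.transcendental_gaussRed_tG (AK A K) n e
  have hdeg' : relfinrank (Kt (AK A K) ⟨((tM ht : ↥(FK M' K)) : LaurentSeries K), htM⟩)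
      (FK (M' * q) K) =
      relfinrank (Kt (AK A K) (TBridge15.tG (AK A K) n e)) (FK M' K) +
        q * relfinrank (Kt (AK A K) (TBridge15.tG (AK A K) n e)) (FK M' K) := by
    rw [show (⟨((tM ht : ↥(FK M' K)) : LaurentSeries K), htM⟩ : ↥(gaussRing (AK A K))) =
      TBridge15.tG (AK A K) n e from rfl, hdeg]
    ring
  have hn : relfinrank (Kt (AK A K) (TBridge15.tG (AK A K) n e)) (FK M' K) +
      q * relfinrank (Kt (AK A K) (TBridge15.tG (AK A K) n e)) (FK M' K) ≠ 0 :=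
    fun h => hn0 (by omega)
  have key := Fermat.Agent.ES.N34.CombOne26.hcomb_one hπ hEM hE (alpha K M' q) (coe_alpha K M' q)
    (tM ht) htM htrM hirrM hdeg' hn (isGaussPullback_O2 M' q hu hE) h12 ht₂ htr₂ b₂ hb₂ hli₂
  intro x hx
  obtain ⟨z, hz, c, hc, h⟩ := key x hx
  exact ⟨z, (mem_OvE_iff (AK A K) hπ (FK M' K) hEM z).mp hz, c, hc, h⟩

/-- **`O2 = β(Ov_{M'}) + π O2`**. -/
theorem hcomb_O2 (hπ : Irreducible π) (hE : FK (M' * q) K ≤ fracField (AK A K))
    (hqM : ¬ q ∣ M') (ht : tq (↥K) n e ∈ FK M' K)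
    (hjt : jqModC (↥K) ∈ Kt (AK A K) (TBridge15.tG (AK A K) n e)) :
    ∀ x ∈ O2 M' q (isUnif_of_irreducible (AK A K) hπ) hE,
      ∃ z : FK M' K, (z : LaurentSeries ↥K) ∈ gaussRing (AK A K) ∧
        ∃ c ∈ O2 M' q (isUnif_of_irreducible (AK A K) hπ) hE,
          x - beta K M' q z = algebraMap ↥(AK A K) ↥(FK (M' * q) K) π * c :=
  Fermat.Agent.ES.N34.CombW5.hcomb_O2_of_O1 M' q (isUnif_of_irreducible (AK A K) hπ) hE
    (fun x => isoM A K M' q hπ hqM x) (hcomb_O1 M' q hπ hE hqM ht hjt)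

end Concrete

end Fermat.Agent.T1B.GaussW95
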