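/-
Fermat/Agent/T1B/GaussW95/ResIdMain.lean  (helper95, programme T1B, slice S3 GAUSS, RESFIELD-ID, finite level)

FINITE LEVEL, `ModelDefs9` vocabulary (`O := AK A K` a DVR with irreducible `π`, residue characteristic
`q ∤ M'`, `F := FK (M' * q) K`, `t = tq K n e ∈ FK M' K`, `j ∈ K(t)`).

* `isGaussPullback_WpK` : **`O2` is the Gauss pull-back along the finite-level Atkin–Lehner
  expansion** `WpK M' q K : F →ₐ[K] K((q))` (`AlFK.lean`): `x ∈ O2 ↔ WpK x ∈ gaussRing (AK A K)`.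
* `hcomb_O1`, `hcomb_O2` : `O1 = α(Ov_{M'}) + π O1`, `O2 = β(Ov_{M'}) + π O2`.
* `gaussRed_mem_fullC_of_mem_O2` **(RF2-fin)** : for ANY Gauss pull-back expansion `ι` of `O2` with
  `ι ∘ β = coe`, the residue of every `x ∈ O2` lies in `modularFunctionFieldFullC κ M'`; in particular
  for `ι = WpK` (`gaussRed_WpK_mem_fullC`).
* `gaussRed_mem_fullC_of_mem_O1` **(RF1-fin)** : the same for `O1` (expansion at `∞`).
-/
import Mathlib
import Fermat.Agent.ES.N34.CombA26
import Fermat.Agent.ES.N34.CombW5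
import Fermat.Agent.ES.RED.ResField26
import Fermat.Agent.T1B.GaussW95.Core
import Fermat.Agent.T1B.GaussW95.AlFK
import Fermat.Agent.T1B.GaussW95.ResId

set_option autoImplicit false
set_option linter.unusedSectionVars false

noncomputable section

open HahnSeries ModularCurve IntermediateField

namespace Fermat.Agent.T1B.GaussW95

open Fermat.Agent.RED.Interface4 Fermat.Agent.RED.PUR.GaussGen8 Fermat.Agent.RED.PUR.KtGauss8
open Fermat.Agent.RED.PUR.G1Package8 Fermat.Agent.RED.PUR.GaussBridge10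
open Fermat.Agent.ES.N34.FrickeFK8 Fermat.Agent.ES.N34.ModelDefs9 Fermat.Agent.ES.N34.GaussEmb22
open Fermat.Agent.ES.N34.ModelGlue22 Fermat.Agent.ES.N34.IsoM25
open Fermat.Agent.RED.BASE Fermat.Agent.RED.BASE.EtaQuot12

set_option synthInstance.maxHeartbeats 400000
set_option maxHeartbeats 400000

/-! ### Abstract: residues modulo `π` (series level) -/

section Abstract

variable {K : Type*} [Field K] {O : ValuationSubring K} {π : ↥O}

/-- `f ≡ g mod π · gaussRing` have the same residue. -/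
theorem gaussRed_eq_of_sub_eq_pi (hu : IsUnif O π) {f g c : LaurentSeries K}
    (hf : f ∈ gaussRing O) (hg : g ∈ gaussRing O) (hc : c ∈ gaussRing O)
    (h : f - g = HahnSeries.C ((π : ↥O) : K) * c) :
    gaussRed O ⟨f, hf⟩ = gaussRed O ⟨g, hg⟩ := by
  have h1 : (⟨f, hf⟩ : gaussRing O) - ⟨g, hg⟩ = constG O π * ⟨c, hc⟩ := Subtype.ext h
  have h2 := congrArg (gaussRed O) h1
  rw [map_sub, map_mul, gaussRed_unif hu, zero_mul, sub_eq_zero] at h2
  exact h2

end Abstract

section Concrete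

variable {A : ValuationSubring Qbar} {K : IntermediateField ℚ Qbar} (M' q : ℕ) [NeZero M']
  [NeZero q] [hq : Fact q.Prime] [IsDiscreteValuationRing ↥(AK A K)] [CharP (Res (AK A K)) q]
  {π : ↥(AK A K)} {n e : ℕ} [NeZero n]

/-- the series of `π ∈ FK N K`. -/
theorem coe_algebraMap_AK (N : ℕ) [NeZero N] (r : ↥(AK A K)) :
    ((algebraMap ↥(AK A K) ↥(FK N K) r : FK N K) : LaurentSeries K) =
      HahnSeries.C ((r : ↥(AK A K)) : K) := by
  show algebraMap K (LaurentSeries K) (r : K) = _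
  rw [Fermat.Agent.RED.PUR.GaussGen8.algebraMap_eq_C]

/-! ### Residues lie in the function field of the good level -/

/-- good level: residues of Gauss-integral elements of `FK M' K` lie in `κ(x̄_d : d ∣ M')`. -/
theorem gaussRed_mem_fullC_of_mem_FK (hπ : Irreducible π) (hqM : ¬ q ∣ M')
    (z : FK M' K) (hz : (z : LaurentSeries K) ∈ gaussRing (AK A K)) :
    gaussRed (AK A K) ⟨(z : LaurentSeries K), hz⟩ ∈
      modularFunctionFieldFullC (Res (AK A K)) M' := by
  have hFKM : FK M' K = modularFunctionFieldFullC (↥K) M' :=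
    Fermat.Agent.RED.PUR.DegBaseChange25.laurentBaseChange_full_eq (L := ↥K) M'
  have hzM : (z : LaurentSeries K) ∈ modularFunctionFieldFullC (↥K) M' := by
    rw [← hFKM]; exact z.2
  exact Fermat.Agent.ES.RED.ResField26.gaussRed_mem_fullC (AK A K) hπ q M' hqM
    ⟨(z : LaurentSeries K), hz⟩ hzM

/-- **(RF1-fin)** the residue of every `x ∈ O1` lies in `κ(x̄_d : d ∣ M')`. -/
theorem gaussRed_mem_fullC_of_mem_O1 (hπ : Irreducible π)
    (hE : FK (M' * q) K ≤ fracField (AK A K))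
    (hqM : ¬ q ∣ M') (ht : tq (↥K) n e ∈ FK M' K)
    (hjt : jqModC (↥K) ∈ Kt (AK A K) (TBridge15.tG (AK A K) n e))
    (x : FK (M' * q) K) (hx : (x : LaurentSeries K) ∈ gaussRing (AK A K)) :
    gaussRed (AK A K) ⟨(x : LaurentSeries K), hx⟩ ∈
      modularFunctionFieldFullC (Res (AK A K)) M' := by
  have hu := isUnif_of_irreducible (AK A K) hπ
  have hxO : x ∈ O1 M' q hu hE := (mem_O1_iff M' q hu hE x).mpr hx
  obtain ⟨z, hz, c, hc, h⟩ := hcomb_O1 M' q hπ hE hqM ht hjt x hxO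
  have hc' : (c : LaurentSeries K) ∈ gaussRing (AK A K) := (mem_O1_iff M' q hu hE c).mp hc
  have h' : (x : LaurentSeries K) - (z : LaurentSeries K) =
      HahnSeries.C ((π : ↥(AK A K)) : K) * (c : LaurentSeries K) := by
    have h1 : ((x - alpha K M' q z : FK (M' * q) K) : LaurentSeries K) =
        ((algebraMap ↥(AK A K) ↥(FK (M' * q) K) π * c : FK (M' * q) K) : LaurentSeries K) := by
      rw [h]
    push_cast at h1
    rw [coe_alpha, coe_algebraMap_AK] at h1
    exact h1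
  rw [gaussRed_eq_of_sub_eq_pi hu hx hz hc' h']
  exact gaussRed_mem_fullC_of_mem_FK M' q hπ hqM z hz

/-- **(RF2-fin), abstract expansion**: for ANY expansion `ι` along which `O2` is the Gauss pull-back
and with `ι ∘ β = coe`, the residue of every `x ∈ O2` lies in `κ(x̄_d : d ∣ M')`. -/
theorem gaussRed_mem_fullC_of_mem_O2 (hπ : Irreducible π)
    (hE : FK (M' * q) K ≤ fracField (AK A K))
    (hqM : ¬ q ∣ M') (ht : tq (↥K) n e ∈ FK M' K)
    (hjt : jqModC (↥K) ∈ Kt (AK A K) (TBridge15.tG (AK A K) n e))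
    (ι : FK (M' * q) K →ₐ[K] LaurentSeries (↥K))
    (hι : IsGaussPullback (AK A K) ι (O2 M' q (isUnif_of_irreducible (AK A K) hπ) hE))
    (hιβ : ∀ z : FK M' K, ι (beta K M' q z) = (z : LaurentSeries K))
    (x : FK (M' * q) K) (hx : ι x ∈ gaussRing (AK A K)) :
    gaussRed (AK A K) ⟨ι x, hx⟩ ∈ modularFunctionFieldFullC (Res (AK A K)) M' := by
  have hu := isUnif_of_irreducible (AK A K) hπ
  have hxO : x ∈ O2 M' q hu hE := (hι x).mpr hx
  obtain ⟨z, hz, c, hc, h⟩ := hcomb_O2 M' q hπ hE hqM ht hjt x hxO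
  have hc' : ι c ∈ gaussRing (AK A K) := (hι c).mp hc
  have h' : ι x - (z : LaurentSeries K) = HahnSeries.C ((π : ↥(AK A K)) : K) * ι c := by
    have h1 := congrArg ι h
    rw [map_sub, map_mul, hιβ] at h1
    rw [h1]
    congr 1
    show ι (algebraMap K (FK (M' * q) K) ((π : ↥(AK A K)) : K)) = _
    rw [AlgHom.commutes, Fermat.Agent.RED.PUR.GaussGen8.algebraMap_eq_C]
  rw [gaussRed_eq_of_sub_eq_pi hu hx hz hc' h']
  exact gaussRed_mem_fullC_of_mem_FK M' q hπ hqM z hz

/-- **(RF2-fin)** for the Atkin–Lehner expansion: `(W_p x)~ ∈ κ(x̄_d : d ∣ M')` for every `x` with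
`W_p x` Gauss-integral (i.e. `x ∈ O2`). -/
theorem gaussRed_WpK_mem_fullC (hπ : Irreducible π)
    (hE : FK (M' * q) K ≤ fracField (AK A K))
    (hqM : ¬ q ∣ M') (ht : tq (↥K) n e ∈ FK M' K)
    (hjt : jqModC (↥K) ∈ Kt (AK A K) (TBridge15.tG (AK A K) n e))
    (x : FK (M' * q) K) (hx : WpK M' q K hq.out hqM x ∈ gaussRing (AK A K)) :
    gaussRed (AK A K) ⟨WpK M' q K hq.out hqM x, hx⟩ ∈
      modularFunctionFieldFullC (Res (AK A K)) M' :=
  gaussRed_mem_fullC_of_mem_O2 M' q hπ hE hqM ht hjt (WpK M' q K hq.out hqM)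
    (isGaussPullback_WpK M' q hπ hE hqM ht hjt)
    (fun z => by rw [beta, WpK_beta]) x hx

end Concrete

end Fermat.Agent.T1B.GaussW95
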